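import Fermat.Agent.ErdosKac.Mertens
import Mathlib.NumberTheory.EulerProduct.Basic
import Mathlib.NumberTheory.Chebyshev

/-!
# Sums of multiplicative functions below the divisor function

`∑_{n ≤ N} f n ≪ N / log N · exp (∑_{p ≤ N} f p / p)` for multiplicative `0 ≤ f ≤ τ`, with an
absolute constant (Halberstam and Richert).
-/

set_option autoImplicit false

noncomputable section

namespace FA.HooleyDelta

open Finset Filter
open FA.ErdosKac (primesUpTo mem_primesUpTo)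

theorem exists_sum_primePow_le : ∃ A : ℝ, 0 ≤ A ∧ ∀ y : ℕ,
    ∑ q ∈ (Icc 1 y).filter IsPrimePow, (#q.divisors : ℝ) * Real.log q ≤ A * y := by
  refine ⟨4 * 2 + 2 * 24 ^ 3, by norm_num, fun y => ?_⟩
  rcases Nat.eq_zero_or_pos y with rfl | hy
  · simp
  have hy1 : (1 : ℝ) ≤ y := Nat.one_le_cast.2 hy
  have hy0 : (0 : ℝ) < y := by linarith
  obtain ⟨J, hJ⟩ : ∃ J, J = Nat.log 2 y := ⟨_, rfl⟩
  rw [← sum_filter_add_sum_filter_not _ Nat.Prime, add_mul]
  refine add_le_add ?_ ?_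
  · have h4 : Real.log 4 ≤ 4 := (Real.log_le_sub_one_of_pos (by norm_num)).trans (by norm_num)
    refine le_trans (le_trans (sum_le_sum_of_subset_of_nonneg (t := primesUpTo y) (fun q hq => ?_)
      fun q _ _ => mul_nonneg (Nat.cast_nonneg _) (Real.log_natCast_nonneg q))
      (le_of_eq (?_ : _ = 2 * Chebyshev.theta (y : ℝ)))) ?_
    · simp only [mem_filter, mem_Icc] at hq
      exact mem_primesUpTo.2 ⟨hq.2, hq.1.1.2⟩
    · rw [Chebyshev.theta, Nat.floor_natCast, mul_sum]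
      refine sum_congr (by ext p; simp only [mem_primesUpTo, mem_filter, mem_Ioc]; exact
        ⟨fun h => ⟨⟨h.1.pos, h.2⟩, h.1⟩, fun h => ⟨h.2, h.1.2⟩⟩) fun p hp => ?_
      rw [(mem_filter.1 hp).2.divisors, card_pair (mem_filter.1 hp).2.ne_one.symm]
      norm_num
    · have := Chebyshev.theta_le_log4_mul_x hy0.le
      have := mul_le_mul_of_nonneg_right h4 hy0.le
      linarith
  · obtain ⟨S, hS⟩ : ∃ S : Finset ℕ, S = (Icc 1 (Nat.sqrt y) ×ˢ range (J + 1)).image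
        fun x => x.1 ^ x.2 := ⟨_, rfl⟩
    obtain ⟨l, hl⟩ : ∃ l : ℝ, l = 2 * Real.log y + 1 := ⟨_, rfl⟩
    have hly : 0 ≤ Real.log y := Real.log_natCast_nonneg y
    have hJl : (J : ℝ) + 1 ≤ l := by
      have h := Real.log_le_log (pow_pos two_pos J)
        (show ((2 : ℝ) ^ J) ≤ y from by exact_mod_cast hJ ▸ Nat.pow_log_le_self 2 hy.ne')
      rw [Real.log_pow] at h
      have := Real.log_two_gt_d9
      have := mul_nonneg (Nat.cast_nonneg (α := ℝ) J) (by linarith : (0 : ℝ) ≤ Real.log 2 - 1 / 2)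
      linarith
    have hmem : ∀ q ∈ ((Icc 1 y).filter IsPrimePow).filter (fun q => ¬ q.Prime),
        q ∈ S ∧ (#q.divisors : ℝ) * Real.log q ≤ l * Real.log y := by
      intro q hq
      simp only [mem_filter, mem_Icc] at hq
      obtain ⟨⟨⟨hq1, hqy⟩, hpp⟩, hnp⟩ := hq
      obtain ⟨p, j, hp, hj, rfl⟩ := (isPrimePow_nat_iff q).1 hpp
      have hj2 : 2 ≤ j := by
        by_contra hc
        exact hnp (by rw [show j = 1 by omega, pow_one]; exact hp)
      have hjJ : j ≤ J := hJ ▸ Nat.le_log_of_pow_le one_lt_two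
        ((Nat.pow_le_pow_left hp.two_le j).trans hqy)
      refine ⟨hS ▸ mem_image.2 ⟨(p, j), mem_product.2 ⟨mem_Icc.2 ⟨hp.one_le, Nat.le_sqrt'.2
        ((Nat.pow_le_pow_right hp.pos hj2).trans hqy)⟩, mem_range.2 (by omega)⟩, rfl⟩, ?_⟩
      rw [Nat.divisors_prime_pow hp, card_map, card_range]
      refine mul_le_mul ?_ (Real.log_le_log (Nat.cast_pos.2 hq1) (Nat.cast_le.2 hqy))
        (Real.log_natCast_nonneg _) (by linarith [Nat.cast_nonneg (α := ℝ) J])
      push_cast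
      linarith [(Nat.cast_le (α := ℝ)).2 hjJ]
    have hcard : (#(((Icc 1 y).filter IsPrimePow).filter (fun q => ¬ q.Prime)) : ℝ) ≤
        Real.sqrt y * l := by
      refine (Nat.cast_le.2 ((card_le_card fun q hq => (hmem q hq).1).trans
        (hS ▸ card_image_le))).trans ?_
      rw [card_product, card_range, Nat.card_Icc, Nat.add_sub_cancel, Nat.cast_mul,
        Nat.cast_add_one]
      exact mul_le_mul Real.nat_sqrt_le_real_sqrt hJl (by positivity) (Real.sqrt_nonneg _)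
    have hl0 : 0 ≤ l := by linarith
    refine (sum_le_card_nsmul _ _ _ fun q hq => (hmem q hq).2).trans ?_
    rw [nsmul_eq_mul]
    refine (mul_le_mul_of_nonneg_right hcard (mul_nonneg hl0 hly)).trans ?_
    obtain ⟨v, hv⟩ : ∃ v : ℝ, v = (y : ℝ) ^ (1 / 8 : ℝ) := ⟨_, rfl⟩
    have hv1 : 1 ≤ v := hv ▸ Real.one_le_rpow hy1 (by norm_num)
    have h1 := Real.log_natCast_le_rpow_div y (show (0 : ℝ) < 1 / 8 by norm_num)
    rw [← hv, le_div_iff₀ (by norm_num)] at h1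
    have hlv : l ≤ 24 * v := by rw [hl]; linarith
    have hlogv : Real.log y ≤ 24 * v := by linarith
    calc Real.sqrt y * l * (l * Real.log y) ≤ Real.sqrt y * (24 * v) * (24 * v * (24 * v)) := by
          gcongr
      _ = 24 ^ 3 * ((y : ℝ) ^ (1 / 2 : ℝ) * v ^ 3) := by rw [Real.sqrt_eq_rpow]; ring
      _ ≤ 24 ^ 3 * (y : ℝ) ^ (1 : ℝ) := by
          gcongr
          rw [hv, ← Real.rpow_mul_natCast hy0.le, ← Real.rpow_add hy0]
          exact Real.rpow_le_rpow_of_exponent_le hy1 (by norm_num)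
      _ ≤ _ := by rw [Real.rpow_one]; linarith

variable {f : ℕ → ℝ}

/-- `∑_{n ≤ N} f n / n ≪ exp (∑_{p ≤ N} f p / p)`. -/
theorem exists_sum_div_le : ∃ C : ℝ, 0 ≤ C ∧ ∀ f : ℕ → ℝ, (∀ n, 0 ≤ f n) → f 1 = 1 →
    (∀ m n : ℕ, m.Coprime n → f (m * n) = f m * f n) → (∀ n, f n ≤ #n.divisors) →
    ∀ N : ℕ, ∑ n ∈ Icc 1 N, f n / n ≤ C * Real.exp (∑ p ∈ primesUpTo N, f p / p) := by
  obtain ⟨S, hS⟩ : ∃ S : ℝ, S = ∑' j : ℕ, ((j : ℝ) + 3) * (1 / 2 : ℝ) ^ j := ⟨_, rfl⟩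
  have hS1 : Summable fun j : ℕ => ((j : ℝ) + 3) * (1 / 2 : ℝ) ^ j := by
    have h1 := summable_pow_mul_geometric_of_norm_lt_one 1
      (show ‖(1 / 2 : ℝ)‖ < 1 by norm_num)
    have h2 := (summable_geometric_of_lt_one (show (0 : ℝ) ≤ 1 / 2 by norm_num)
      (by norm_num)).mul_left 3
    exact (h1.add h2).congr fun j => by ring
  have hS0 : 0 ≤ S := hS ▸ tsum_nonneg fun j => by positivity
  refine ⟨Real.exp (2 * S), (Real.exp_pos _).le, fun f hnn hone hmul hle N => ?_⟩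
  obtain ⟨F, hF⟩ : ∃ F : ℕ → ℝ, F = fun n => f n / n := ⟨_, rfl⟩
  have hF0 : ∀ n, 0 ≤ F n := fun n => by
    rw [hF]; exact div_nonneg (hnn n) (Nat.cast_nonneg n)
  have hterm : ∀ p : ℕ, p.Prime → ∀ j : ℕ, F (p ^ j) ≤ ((j : ℝ) + 1) * ((p : ℝ)⁻¹) ^ j := by
    intro p hp j
    rw [hF]
    simp only
    rw [Nat.cast_pow, div_eq_mul_inv, ← inv_pow]
    refine mul_le_mul_of_nonneg_right ((hle _).trans (le_of_eq ?_)) (by positivity)
    rw [Nat.divisors_prime_pow hp, card_map, card_range]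
    push_cast
    ring
  have hloc : ∀ p : ℕ, p.Prime → Summable (fun j : ℕ => F (p ^ j)) ∧
      ∑' j : ℕ, F (p ^ j) ≤ 1 + f p / p + S * ((p : ℝ) ^ 2)⁻¹ := by
    intro p hp
    have hp2 : ((p : ℝ))⁻¹ ≤ 1 / 2 := by
      rw [inv_eq_one_div]
      exact one_div_le_one_div_of_le two_pos (Nat.ofNat_le_cast.2 hp.two_le)
    have hsum : Summable (fun j : ℕ => F (p ^ j)) := by
      refine Summable.of_nonneg_of_le (fun j => hF0 _) (fun j => (hterm p hp j).trans ?_) hS1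
      exact mul_le_mul (by linarith) (pow_le_pow_left₀ (by positivity) hp2 j) (by positivity)
        (by positivity)
    refine ⟨hsum, ?_⟩
    rw [← hsum.sum_add_tsum_nat_add 2, sum_range_succ, sum_range_one]
    refine add_le_add (le_of_eq (by simp [hF, hone])) ?_
    rw [hS, mul_comm, ← tsum_mul_left]
    refine ((summable_nat_add_iff 2).2 hsum).tsum_le_tsum
      (fun j => (hterm p hp (j + 2)).trans ?_) (hS1.mul_left _)
    rw [pow_add, inv_pow (p : ℝ) 2,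
      show ((p : ℝ) ^ 2)⁻¹ * (((j : ℝ) + 3) * (1 / 2 : ℝ) ^ j) =
        ((j : ℝ) + 3) * ((1 / 2 : ℝ) ^ j * ((p : ℝ) ^ 2)⁻¹) by ring]
    push_cast
    rw [show (j : ℝ) + 2 + 1 = j + 3 by ring]
    gcongr
  obtain ⟨hsum, hh⟩ := EulerProduct.summable_and_hasSum_factoredNumbers_prod_filter_prime_tsum
    (f := F) (by simp [hF, hone])
    (fun {m n} h => by simp only [hF, hmul m n h, Nat.cast_mul]; ring)
    (fun {p} hp => ((hloc p hp).1).congr fun j => (Real.norm_of_nonneg (hF0 _)).symm)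
    (primesUpTo N)
  rw [filter_true_of_mem fun p hp => (mem_primesUpTo.1 hp).1] at hh
  have hsub : ∀ n ∈ Icc 1 N, n ∈ Nat.factoredNumbers (primesUpTo N) := fun n hn => by
    rw [mem_Icc] at hn
    exact Nat.mem_factoredNumbers.2 ⟨by omega, fun p hp => mem_primesUpTo.2
      ⟨Nat.prime_of_mem_primeFactorsList hp,
        (Nat.le_of_dvd hn.1 (Nat.dvd_of_mem_primeFactorsList hp)).trans hn.2⟩⟩
  have h1 : ∑ n ∈ Icc 1 N, F n ≤ ∏ p ∈ primesUpTo N, (1 + f p / p + S * ((p : ℝ) ^ 2)⁻¹) := by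
    refine le_trans ?_ (prod_le_prod (fun p _ => tsum_nonneg fun j => hF0 _)
      fun p hp => (hloc p (mem_primesUpTo.1 hp).1).2)
    refine le_trans (le_of_eq ?_) (sum_le_hasSum ((Icc 1 N).attach.map
      ⟨fun n => ⟨n.1, hsub n.1 n.2⟩, fun a b h => Subtype.ext (by simpa using h)⟩)
      (fun n _ => hF0 _) hh)
    rw [sum_map, ← sum_attach (Icc 1 N)]
    rfl
  rw [show ∑ n ∈ Icc 1 N, f n / n = ∑ n ∈ Icc 1 N, F n by rw [hF]]
  refine h1.trans ((prod_le_prod (g := fun p : ℕ => Real.exp (f p / p + S * ((p : ℝ) ^ 2)⁻¹))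
    (fun p _ => add_nonneg (add_nonneg zero_le_one (div_nonneg (hnn p) (Nat.cast_nonneg p)))
      (by positivity))
    fun p _ => le_trans (by linarith) (Real.add_one_le_exp _)).trans ?_)
  rw [← Real.exp_sum, sum_add_distrib, ← Real.exp_add, Real.exp_le_exp, ← mul_sum]
  have hsq : ∑ p ∈ primesUpTo N, ((p : ℝ) ^ 2)⁻¹ ≤ 2 :=
    (sum_le_sum_of_subset_of_nonneg (t := Ioo 0 (N + 1)) (fun p hp => mem_Ioo.2
      ⟨(mem_primesUpTo.1 hp).1.pos, Nat.lt_succ_of_le (mem_primesUpTo.1 hp).2⟩)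
      fun p _ _ => by positivity).trans ((sum_Ioo_inv_sq_le 0 (N + 1)).trans_eq (by norm_num))
  have := mul_le_mul_of_nonneg_left hsq hS0
  linarith

/-- **The inequality of Halberstam and Richert.** -/
theorem exists_sum_le : ∃ C : ℝ, 0 ≤ C ∧ ∀ f : ℕ → ℝ, (∀ n, 0 ≤ f n) → f 1 = 1 →
    (∀ m n : ℕ, m.Coprime n → f (m * n) = f m * f n) → (∀ n, f n ≤ #n.divisors) →
    ∀ N : ℕ, 2 ≤ N → ∑ n ∈ Icc 1 N, f n ≤
      C * (N / Real.log N) * Real.exp (∑ p ∈ primesUpTo N, f p / p) := by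
  obtain ⟨A, hA0, hA⟩ := exists_sum_primePow_le
  obtain ⟨C, hC0, hC⟩ := exists_sum_div_le
  refine ⟨(1 + A) * C, by positivity, fun f hnn hone hmul hle N hN => ?_⟩
  obtain ⟨S, hS⟩ : ∃ S, S = ∑ n ∈ Icc 1 N, f n := ⟨_, rfl⟩
  obtain ⟨M, hM⟩ : ∃ M, M = ∑ n ∈ Icc 1 N, f n / n := ⟨_, rfl⟩
  have hlN : 0 < Real.log N := Real.log_pos (Nat.one_lt_cast.2 (by omega))
  have h1 : ∑ n ∈ Icc 1 N, f n * Real.log ((N : ℝ) / n) ≤ N * M := by
    rw [hM, mul_sum]
    refine sum_le_sum fun n hn => ?_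
    have hn0 : (0 : ℝ) < n := Nat.cast_pos.2 (mem_Icc.1 hn).1
    rw [mul_div_left_comm]
    exact mul_le_mul_of_nonneg_left
      ((Real.log_le_sub_one_of_pos (div_pos (by positivity) hn0)).trans (by linarith)) (hnn n)
  have h2 : ∑ n ∈ Icc 1 N, f n * Real.log n ≤ A * N * M := by
    have e : ∑ n ∈ Icc 1 N, f n * Real.log n = ∑ x ∈ (Icc 1 N).sigma (fun n => n.primeFactors),
        f x.1 * Real.log ((x.2 ^ x.1.factorization x.2 : ℕ) : ℝ) := by
      rw [sum_sigma]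
      refine sum_congr rfl fun n hn => ?_
      have hn0 : n ≠ 0 := by have := (mem_Icc.1 hn).1; omega
      conv_lhs => rw [Nat.prod_primeFactors_pow_factorization hn0, Nat.cast_prod]
      rw [Real.log_prod fun p hp => Nat.cast_ne_zero.2 (pow_pos
        (Nat.prime_of_mem_primeFactors hp).pos _).ne', mul_sum,
        ← Nat.prod_primeFactors_pow_factorization hn0]
    obtain ⟨Φ, hΦ⟩ : ∃ Φ : (Σ _ : ℕ, ℕ) → ℕ × ℕ, Φ = fun x =>
        (x.1 / x.2 ^ x.1.factorization x.2, x.2 ^ x.1.factorization x.2) := ⟨_, rfl⟩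
    obtain ⟨T, hT⟩ : ∃ T : Finset (ℕ × ℕ), T = (Icc 1 N ×ˢ (Icc 1 N).filter IsPrimePow).filter
        fun y => y.2 ≤ N / y.1 := ⟨_, rfl⟩
    have hspec : ∀ x ∈ (Icc 1 N).sigma (fun n => n.primeFactors),
        x.2.Prime ∧ 1 ≤ x.1.factorization x.2 ∧ x.1 ≠ 0 ∧ x.1 ≤ N := fun x hx => by
      obtain ⟨hx1, hx2⟩ := mem_sigma.1 hx
      have hp := Nat.prime_of_mem_primeFactors hx2
      have hn0 : x.1 ≠ 0 := by have := (mem_Icc.1 hx1).1; omega
      exact ⟨hp, hp.factorization_pos_of_dvd hn0 (Nat.dvd_of_mem_primeFactors hx2), hn0,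
        (mem_Icc.1 hx1).2⟩
    have hinj : Set.InjOn Φ ((Icc 1 N).sigma (fun n => n.primeFactors) : Set (Σ _ : ℕ, ℕ)) := by
      intro x hx y hy hxy
      obtain ⟨hp, he, -, -⟩ := hspec x hx
      obtain ⟨hp', he', -, -⟩ := hspec y hy
      rw [hΦ] at hxy
      simp only [Prod.mk.injEq] at hxy
      have h2 : x.2 = y.2 := (Nat.prime_dvd_prime_iff_eq hp hp').1
        (hp.dvd_of_dvd_pow (hxy.2 ▸ dvd_pow_self x.2 (by omega)))
      have h1 : x.1 = y.1 := by
        rw [← Nat.mul_div_cancel' (Nat.ordProj_dvd x.1 x.2),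
          ← Nat.mul_div_cancel' (Nat.ordProj_dvd y.1 y.2), hxy.1, hxy.2]
      exact Sigma.ext h1 (heq_of_eq h2)
    rw [e]
    refine (sum_le_sum (g := fun x => (fun y : ℕ × ℕ =>
      f y.1 * ((#y.2.divisors : ℝ) * Real.log y.2)) (Φ x)) fun x hx => ?_).trans ?_
    · obtain ⟨hp, he, hn0, -⟩ := hspec x hx
      rw [hΦ]
      simp only
      conv_lhs => rw [← Nat.mul_div_cancel' (Nat.ordProj_dvd x.1 x.2)]
      rw [hmul _ _ (Nat.Coprime.pow_left _ (Nat.coprime_ordCompl hp hn0)),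
        mul_comm (f _) (f _), mul_assoc,
        Nat.mul_div_cancel' (Nat.ordProj_dvd x.1 x.2)]
      exact mul_le_mul_of_nonneg_left (mul_le_mul_of_nonneg_right (hle _)
        (Real.log_natCast_nonneg _)) (hnn _)
    rw [← sum_image hinj (f := fun y : ℕ × ℕ => f y.1 * ((#y.2.divisors : ℝ) * Real.log y.2))]
    refine (sum_le_sum_of_subset_of_nonneg (t := T) (fun y hy => ?_) fun y _ _ =>
      mul_nonneg (hnn _) (mul_nonneg (Nat.cast_nonneg _) (Real.log_natCast_nonneg _))).trans ?_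
    · obtain ⟨x, hx, rfl⟩ := mem_image.1 hy
      obtain ⟨hp, he, hn0, hxN⟩ := hspec x hx
      rw [hT, hΦ]
      simp only [mem_filter, mem_product, mem_Icc]
      have hm1 : 1 ≤ x.1 / x.2 ^ x.1.factorization x.2 := Nat.ordCompl_pos x.2 hn0
      have hq1 : 1 ≤ x.2 ^ x.1.factorization x.2 := pow_pos hp.pos _
      have hmul' : x.2 ^ x.1.factorization x.2 * (x.1 / x.2 ^ x.1.factorization x.2) = x.1 :=
        Nat.mul_div_cancel' (Nat.ordProj_dvd _ _)
      refine ⟨⟨⟨hm1, (Nat.div_le_self _ _).trans hxN⟩, ⟨hq1, ?_⟩,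
        (isPrimePow_nat_iff _).2 ⟨_, _, hp, he, rfl⟩⟩, (Nat.le_div_iff_mul_le hm1).2 ?_⟩
      · exact (Nat.le_of_dvd (Nat.pos_of_ne_zero hn0) (Nat.ordProj_dvd _ _)).trans hxN
      · rw [hmul']
        exact hxN
    · rw [hT, sum_filter, sum_product, hM, mul_sum]
      refine sum_le_sum fun m hm => ?_
      rw [← sum_filter]
      simp only [← mul_sum]
      calc f m * ∑ q ∈ ((Icc 1 N).filter IsPrimePow).filter (fun q => q ≤ N / m),
            (#q.divisors : ℝ) * Real.log q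
          ≤ f m * ∑ q ∈ (Icc 1 (N / m)).filter IsPrimePow, (#q.divisors : ℝ) * Real.log q := by
            refine mul_le_mul_of_nonneg_left (sum_le_sum_of_subset_of_nonneg (fun q hq => ?_)
              fun q _ _ => mul_nonneg (Nat.cast_nonneg _) (Real.log_natCast_nonneg q)) (hnn m)
            simp only [mem_filter, mem_Icc] at hq ⊢
            exact ⟨⟨hq.1.1.1, hq.2⟩, hq.1.2⟩
        _ ≤ f m * (A * ((N : ℝ) / m)) := mul_le_mul_of_nonneg_left
            ((hA _).trans (mul_le_mul_of_nonneg_left Nat.cast_div_le hA0)) (hnn m)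
        _ = _ := by ring
  have e : S * Real.log N =
      ∑ n ∈ Icc 1 N, f n * Real.log ((N : ℝ) / n) + ∑ n ∈ Icc 1 N, f n * Real.log n := by
    rw [hS, sum_mul, ← sum_add_distrib]
    refine sum_congr rfl fun n hn => ?_
    rw [Real.log_div (Nat.cast_ne_zero.2 (by omega))
      (Nat.cast_ne_zero.2 (by have := (mem_Icc.1 hn).1; omega))]
    ring
  rw [← hS, show (1 + A) * C * ((N : ℝ) / Real.log N) * Real.exp (∑ p ∈ primesUpTo N, f p / p) =
    (1 + A) * N * (C * Real.exp (∑ p ∈ primesUpTo N, f p / p)) / Real.log N by ring,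
    le_div_iff₀ hlN]
  have h3 := mul_le_mul_of_nonneg_left (hM ▸ hC f hnn hone hmul hle N)
    (show (0 : ℝ) ≤ (1 + A) * N by positivity)
  linarith

end FA.HooleyDelta
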