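import Fermat.Agent.ErdosKac.Mertens
import Fermat.Agent.RichertValues.Mertens
import Fermat.Agent.Root.SummaryDelaValleePoussin
import Mathlib.MeasureTheory.Integral.IntervalIntegral.Periodic
import Mathlib.Analysis.SpecialFunctions.Integrals.Basic

/-!
# The primes against `|cos (θ log p / 2)|`

`∑_{p ≤ N} |cos (θ log p / 2)| / p ≤ 2 / π log log N + (1 - 2 / π) log (1 / θ) + O (1)` uniformly in
`0 < θ ≤ 1`: by the prime number theorem the sum is `∫ |cos (θ t / 2)| dt / t`, and the mean of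
`|cos|` over a period is `2 / π`.
-/

set_option autoImplicit false

noncomputable section

namespace FA.HooleyDelta

open Finset MeasureTheory
open FA.ErdosKac (primesUpTo mem_primesUpTo)
open scoped Real

/-- `ϑ n - n`. -/
def thetaErr (n : ℕ) : ℝ := Chebyshev.theta (n : ℝ) - n

theorem exists_abs_thetaErr_le : ∃ K : ℝ, 0 < K ∧ ∀ n : ℕ, 2 ≤ n →
    |thetaErr n| ≤ K * n / Real.log n ^ 3 := by
  obtain ⟨c, C, hc, hC, h⟩ := DLVP.Summary.theta_error
  refine ⟨C * (720 / c ^ 6), by positivity, fun n hn => ?_⟩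
  have hn2 : (2 : ℝ) ≤ n := Nat.ofNat_le_cast.2 hn
  have hl : 0 < Real.log n := Real.log_pos (by linarith)
  refine (h n hn2).trans ?_
  obtain ⟨u, hu⟩ : ∃ u : ℝ, u = c * √(Real.log n) := ⟨_, rfl⟩
  have hu0 : 0 < u := hu ▸ mul_pos hc (Real.sqrt_pos.2 hl)
  have h1 := Real.pow_div_factorial_le_exp (x := u) hu0.le 6
  rw [show ((Nat.factorial 6 : ℕ) : ℝ) = 720 by norm_num [Nat.factorial]] at h1
  have h2 : Real.exp (-u) ≤ 720 / c ^ 6 / Real.log n ^ 3 := by
    rw [Real.exp_neg, div_div, inv_le_comm₀ (Real.exp_pos u) (by positivity), inv_div]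
    refine le_trans (le_of_eq ?_) h1
    rw [hu, mul_pow, show √(Real.log n) ^ 6 = (√(Real.log n) ^ 2) ^ 3 by ring,
      Real.sq_sqrt hl.le]
  rw [← hu]
  refine (mul_le_mul_of_nonneg_left h2 (by positivity)).trans_eq ?_
  ring

theorem thetaErr_one : thetaErr 1 = -1 := by
  rw [thetaErr, Chebyshev.theta_eq_zero_of_le_one (by norm_num), Nat.cast_one, zero_sub]

theorem sum_mul_thetaErr_eq (φ : ℕ → ℝ) {N : ℕ} (hN : 1 ≤ N) :
    ∑ n ∈ Ico 2 (N + 1), φ n * (thetaErr n - thetaErr (n - 1)) =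
      φ (N + 1) * thetaErr N - φ 2 * thetaErr 1 -
        ∑ n ∈ Ico 2 (N + 1), thetaErr n * (φ (n + 1) - φ n) := by
  induction N, hN using Nat.le_induction with
  | base => simp
  | succ N hN ih =>
    rw [sum_Ico_succ_top (show 2 ≤ N + 1 by omega) (fun n => φ n * (thetaErr n - thetaErr (n - 1))),
      sum_Ico_succ_top (show 2 ≤ N + 1 by omega) (fun n => thetaErr n * (φ (n + 1) - φ n)), ih,
      Nat.add_sub_cancel]
    ring

theorem thetaErr_sub {n : ℕ} (hn : 1 ≤ n) :
    thetaErr n - thetaErr (n - 1) = (if n.Prime then Real.log n else 0) - 1 := by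
  obtain ⟨m, rfl⟩ : ∃ m, n = m + 1 := ⟨n - 1, by omega⟩
  rw [Nat.add_sub_cancel, thetaErr, thetaErr, Chebyshev.theta, Chebyshev.theta, Nat.floor_natCast,
    Nat.floor_natCast, sum_filter, sum_filter, sum_Ioc_succ_top (Nat.zero_le m)]
  push_cast
  ring

theorem abs_weight_sub_le {g : ℝ → ℝ} (hg0 : ∀ t, 0 ≤ g t) (hg1 : ∀ t, g t ≤ 1)
    (hlip : ∀ s t, |g s - g t| ≤ |s - t|) {n : ℕ} (hn : 2 ≤ n) :
    |g (Real.log ((n + 1 : ℕ) : ℝ)) / (((n + 1 : ℕ) : ℝ) * Real.log ((n + 1 : ℕ) : ℝ)) -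
        g (Real.log n) / (n * Real.log n)| ≤ 4 / ((n : ℝ) ^ 2 * Real.log n) := by
  obtain ⟨x, hx⟩ : ∃ x : ℝ, x = n := ⟨_, rfl⟩
  push_cast
  rw [← hx]
  have hx2 : 2 ≤ x := hx ▸ Nat.ofNat_le_cast.2 hn
  have hx0 : 0 < x := by linarith
  obtain ⟨l, hl⟩ : ∃ l, l = Real.log x := ⟨_, rfl⟩
  obtain ⟨l', hl'⟩ : ∃ l', l' = Real.log (x + 1) := ⟨_, rfl⟩
  rw [← hl, ← hl']
  have hl2 : 0.69 ≤ l := by
    rw [hl]
    linarith [Real.log_le_log two_pos hx2, Real.log_two_gt_d9]
  have hll : l ≤ l' := hl ▸ hl' ▸ Real.log_le_log hx0 (by linarith)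
  have hd : l' - l ≤ 1 / x := by
    rw [hl, hl', ← Real.log_div (by linarith) hx0.ne']
    refine (Real.log_le_sub_one_of_pos (by positivity)).trans (le_of_eq ?_)
    field_simp
    ring
  have h1 : |g l' - g l| ≤ 1 / x := (hlip l' l).trans (by rwa [abs_of_nonneg (by linarith)])
  have hl0 : 0 < l := by linarith
  have hP : 0 < (x + 1) * l' := mul_pos (by linarith) (by linarith)
  have hQ : x * l ≤ (x + 1) * l' := mul_le_mul (by linarith) hll hl0.le (by linarith)
  have hgap : 1 / (x * l) - 1 / ((x + 1) * l') ≤ 3 / (x ^ 2 * l) := by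
    rw [div_sub_div _ _ (mul_pos hx0 hl0).ne' hP.ne', div_le_div_iff₀ (by positivity)
      (by positivity)]
    have hxd : x * (l' - l) ≤ 1 := by
      have := mul_le_mul_of_nonneg_left hd hx0.le
      rwa [mul_one_div_cancel hx0.ne'] at this
    have h4 : (x + 1) * l' - x * l ≤ l' + 1 := by linarith
    have h5 : (l' + 1) * x ≤ 3 * ((x + 1) * l') := by nlinarith
    have := mul_le_mul_of_nonneg_right h4 (show 0 ≤ x ^ 2 * l by positivity)
    have := mul_le_mul_of_nonneg_right h5 (show 0 ≤ x * l by positivity)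
    linarith
  have hgap0 : 0 ≤ 1 / (x * l) - 1 / ((x + 1) * l') :=
    sub_nonneg.2 (one_div_le_one_div_of_le (mul_pos hx0 hl0) hQ)
  rw [show g l' / ((x + 1) * l') - g l / (x * l) =
    (g l' - g l) * (1 / (x * l)) - g l' * (1 / (x * l) - 1 / ((x + 1) * l')) by ring]
  refine (abs_sub _ _).trans ?_
  rw [abs_mul, abs_mul, abs_of_nonneg (hg0 l'), abs_of_nonneg hgap0,
    abs_of_pos (show 0 < 1 / (x * l) by positivity)]
  have e : 4 / (x ^ 2 * l) = 1 / x * (1 / (x * l)) + 1 * (3 / (x ^ 2 * l)) := by field_simp; ring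
  rw [e]
  exact add_le_add (mul_le_mul_of_nonneg_right h1 (by positivity))
    (mul_le_mul (hg1 l') hgap hgap0 zero_le_one)

/-- **From the primes to the integers.** -/
theorem exists_prime_sum_le : ∃ C : ℝ, ∀ g : ℝ → ℝ, (∀ t, 0 ≤ g t) → (∀ t, g t ≤ 1) →
    (∀ s t, |g s - g t| ≤ |s - t|) → ∀ N : ℕ, 2 ≤ N →
      ∑ p ∈ primesUpTo N, g (Real.log p) / p ≤
        ∑ n ∈ Ico 2 (N + 1), g (Real.log n) / (n * Real.log n) + C := by
  obtain ⟨K, hK0, hK⟩ := exists_abs_thetaErr_le
  obtain ⟨Z, hZ⟩ : ∃ Z : ℝ, Z = ∑' i : ℕ,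
      ((((i + 3 : ℕ) : ℝ)) * Real.log ((i + 2 : ℕ) : ℝ) ^ 2)⁻¹ := ⟨_, rfl⟩
  refine ⟨5 * K + 1 + 20 * K * Z, fun g hg0 hg1 hlip N hN => ?_⟩
  obtain ⟨φ, hφ⟩ : ∃ φ : ℕ → ℝ, φ = fun n : ℕ => g (Real.log n) / (n * Real.log n) := ⟨_, rfl⟩
  have hprimes : ∑ p ∈ primesUpTo N, g (Real.log p) / p = ∑ n ∈ Ico 2 (N + 1), φ n +
      ∑ n ∈ Ico 2 (N + 1), φ n * (thetaErr n - thetaErr (n - 1)) := by
    rw [← sum_add_distrib, show primesUpTo N = (Ico 2 (N + 1)).filter Nat.Prime by
      ext p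
      simp only [mem_primesUpTo, mem_filter, mem_Ico]
      exact ⟨fun h => ⟨⟨h.1.two_le, by omega⟩, h.1⟩, fun h => ⟨h.2, by omega⟩⟩, sum_filter]
    refine sum_congr rfl fun n hn => ?_
    rw [mem_Ico] at hn
    have hl : Real.log n ≠ 0 := (Real.log_pos (Nat.one_lt_cast.2 (by omega))).ne'
    rw [thetaErr_sub (by omega), hφ]
    simp only
    split_ifs with hp
    · field_simp
      ring
    · ring
  have hl2 := Real.log_two_gt_d9
  have hbd1 : |φ (N + 1) * thetaErr N| ≤ 5 * K := by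
    have hN2 : (2 : ℝ) ≤ N := Nat.ofNat_le_cast.2 hN
    have hl : Real.log 2 ≤ Real.log N := Real.log_le_log two_pos hN2
    have hl' : Real.log N ≤ Real.log ((N + 1 : ℕ) : ℝ) :=
      Real.log_le_log (by linarith) (by push_cast; linarith)
    have h4 : (0.2 : ℝ) ≤ Real.log N ^ 4 :=
      le_trans (by norm_num) (pow_le_pow_left₀ (by norm_num)
        (show (0.69 : ℝ) ≤ Real.log N by linarith) 4)
    rw [abs_mul, hφ]
    simp only
    rw [abs_of_nonneg (div_nonneg (hg0 _) (mul_nonneg (Nat.cast_nonneg _) (by linarith)))]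
    refine (mul_le_mul (div_le_div₀ zero_le_one (hg1 _)
      (mul_pos (Nat.cast_pos.2 (show 0 < N by omega)) (by linarith))
      (mul_le_mul (Nat.cast_le.2 (Nat.le_succ N)) hl' (by linarith) (Nat.cast_nonneg _)))
      (hK N hN) (abs_nonneg _) (by positivity)).trans ?_
    rw [show 1 / ((N : ℝ) * Real.log N) * (K * N / Real.log N ^ 3) = K / Real.log N ^ 4 by
      field_simp, div_le_iff₀ (by positivity)]
    nlinarith
  have hbd2 : |φ 2 * thetaErr 1| ≤ 1 := by
    rw [thetaErr_one, mul_neg_one, abs_neg, hφ]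
    simp only [Nat.cast_ofNat]
    rw [abs_of_nonneg (div_nonneg (hg0 _) (by positivity)), div_le_one (by positivity)]
    linarith [hg1 (Real.log 2)]
  have hbd3 : |∑ n ∈ Ico 2 (N + 1), thetaErr n * (φ (n + 1) - φ n)| ≤ 20 * K * Z := by
    refine (abs_sum_le_sum_abs _ _).trans ((sum_le_sum (g := fun n : ℕ =>
      20 * K * ((((n + 1 : ℕ) : ℝ)) * Real.log n ^ 2)⁻¹) fun n hn => ?_).trans ?_)
    · rw [mem_Ico] at hn
      have hn2 : (2 : ℝ) ≤ n := Nat.ofNat_le_cast.2 hn.1
      have hl : 0.69 ≤ Real.log n := by linarith [Real.log_le_log two_pos hn2]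
      rw [abs_mul, hφ]
      refine (mul_le_mul (hK n hn.1) (abs_weight_sub_le hg0 hg1 hlip hn.1) (abs_nonneg _)
        (by positivity)).trans ?_
      rw [← div_eq_mul_inv, div_mul_div_comm, div_le_div_iff₀ (by positivity) (by positivity)]
      push_cast
      have h1 : (n : ℝ) + 1 ≤ 2 * n := by linarith
      have h2 : 8 ≤ 20 * Real.log n ^ 2 := by nlinarith
      calc K * (n : ℝ) * 4 * (((n : ℝ) + 1) * Real.log n ^ 2)
          ≤ K * (n : ℝ) * 4 * (2 * n * Real.log n ^ 2) := by gcongr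
        _ = K * (n : ℝ) ^ 2 * Real.log n ^ 2 * 8 := by ring
        _ ≤ K * (n : ℝ) ^ 2 * Real.log n ^ 2 * (20 * Real.log n ^ 2) := by gcongr
        _ = _ := by ring
    · rw [← mul_sum, sum_Ico_eq_sum_range]
      refine mul_le_mul_of_nonneg_left ?_ (by positivity)
      refine le_trans (le_of_eq (sum_congr rfl fun i _ => ?_)) (hZ ▸
        RichertValues.summable_inv_mul_log_sq.sum_le_tsum _ fun i _ => by positivity)
      rw [show 2 + i = i + 2 by omega]
  rw [hprimes, sum_mul_thetaErr_eq φ (by omega : 1 ≤ N)]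
  have b1 := (abs_le.1 hbd1).2
  have b2 := (abs_le.1 hbd2).1
  have b3 := (abs_le.1 hbd3).1
  have e : ∑ n ∈ Ico 2 (N + 1), g (Real.log n) / (n * Real.log n) =
      ∑ n ∈ Ico 2 (N + 1), φ n := by rw [hφ]
  linarith

/-- **From the integers to the integral.** -/
theorem sum_le_integral {g : ℝ → ℝ} (hg0 : ∀ t, 0 ≤ g t) (hg1 : ∀ t, g t ≤ 1)
    (hlip : ∀ s t, |g s - g t| ≤ |s - t|) (hgc : Continuous g) (N : ℕ) :
    ∑ n ∈ Ico 2 (N + 1), g (Real.log n) / (n * Real.log n) ≤
      (∫ t in (Real.log 2)..(Real.log ((N + 2 : ℕ) : ℝ)), g t / t) + 24 := by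
  obtain ⟨a, ha⟩ : ∃ a : ℕ → ℝ, a = fun k : ℕ => Real.log ((k + 2 : ℕ) : ℝ) := ⟨_, rfl⟩
  have hl2 := Real.log_two_gt_d9
  have hapos : ∀ k, 0.69 ≤ a k := fun k => by
    rw [ha]
    have := Real.log_le_log two_pos (show (2 : ℝ) ≤ ((k + 2 : ℕ) : ℝ) by push_cast; linarith)
    linarith
  have hint : ∀ k : ℕ, IntervalIntegrable (fun t => g t / t) volume (a k) (a (k + 1)) :=
    fun k => by
      refine ContinuousOn.intervalIntegrable (hgc.continuousOn.div continuousOn_id fun t ht => ?_)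
      have h1 := hapos k
      have h2 := hapos (k + 1)
      rcases Set.mem_uIcc.1 ht with h | h <;>
        exact ne_of_gt (show (0 : ℝ) < t by linarith [h.1])
  have hstep : ∀ k : ℕ, g (a k) / (((k + 2 : ℕ) : ℝ) * a k) ≤
      (∫ t in (a k)..(a (k + 1)), g t / t) + 7 * (((k + 2 : ℕ) : ℝ) ^ 2)⁻¹ := by
    intro k
    obtain ⟨x, hx⟩ : ∃ x : ℝ, x = ((k + 2 : ℕ) : ℝ) := ⟨_, rfl⟩
    have hx2 : 2 ≤ x := by rw [hx]; push_cast; linarith
    have hx0 : 0 < x := by linarith
    have hk1 : a (k + 1) = Real.log (x + 1) := by rw [ha, hx]; push_cast; ring_nf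
    have hk0 : a k = Real.log x := by rw [ha, hx]
    obtain ⟨l, hl⟩ : ∃ l, l = a k := ⟨_, rfl⟩
    obtain ⟨δ, hδ⟩ : ∃ δ, δ = a (k + 1) - a k := ⟨_, rfl⟩
    have hl1 : 0.69 ≤ l := hl ▸ hapos k
    have hl0 : 0 < l := by linarith
    have hδu : δ ≤ 1 / x := by
      rw [hδ, hk0, hk1, ← Real.log_div (by linarith) hx0.ne']
      refine (Real.log_le_sub_one_of_pos (by positivity)).trans (le_of_eq ?_)
      field_simp
      ring
    have hδl : 1 / (x + 1) ≤ δ := by
      rw [hδ, hk0, hk1, ← Real.log_div (by linarith) hx0.ne']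
      refine le_trans (le_of_eq ?_) (Real.one_sub_inv_le_log_of_pos (by positivity))
      field_simp
      ring
    have hδ0 : 0 ≤ δ := le_trans (by positivity) hδl
    have hlow : ∀ t ∈ Set.Icc (a k) (a (k + 1)), g l / l - 5 * δ ≤ g t / t := by
      intro t ht
      rw [← hl] at ht hδ
      have htd : t - l ≤ δ := by rw [hδ]; linarith [ht.2]
      have hgt : g l - δ ≤ g t := by
        have := (abs_le.1 ((hlip t l).trans_eq (abs_of_nonneg (sub_nonneg.2 ht.1)))).1
        linarith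
      have ht0 : 0 < t := by linarith [ht.1]
      rw [le_div_iff₀ ht0]
      have h1 : g l / l * t = g l + g l / l * (t - l) := by field_simp; ring
      have h2 : g l / l ≤ 2 := by
        rw [div_le_iff₀ hl0]
        linarith [hg1 l]
      have h3 := mul_le_mul h2 htd (by linarith [ht.1]) zero_le_two
      have h4 := mul_le_mul_of_nonneg_left (hl1.trans ht.1) (show (0 : ℝ) ≤ 5 * δ by linarith)
      nlinarith
    have hI : δ * (g l / l - 5 * δ) ≤ ∫ t in (a k)..(a (k + 1)), g t / t := by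
      refine le_trans (le_of_eq ?_) (intervalIntegral.integral_mono_on (by linarith)
        intervalIntegrable_const (hint k) hlow)
      rw [intervalIntegral.integral_const, smul_eq_mul, hδ]
    rw [← hl] at hI
    rw [← hl, ← hx]
    have h2 : 0 ≤ g l / l := div_nonneg (hg0 l) hl0.le
    have h3 : g l / l ≤ 2 := by
      rw [div_le_iff₀ hl0]
      linarith [hg1 l]
    have h4 : 1 / x - δ ≤ 1 / x ^ 2 := by
      refine le_trans (sub_le_sub_left hδl _) ?_
      rw [div_sub_div _ _ hx0.ne' (by linarith : x + 1 ≠ 0), div_le_div_iff₀ (by positivity)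
        (by positivity)]
      nlinarith
    have h5 : δ * δ ≤ 1 / x ^ 2 := (mul_le_mul hδu hδu hδ0 (by positivity)).trans_eq (by ring)
    have h6 := mul_le_mul_of_nonneg_left h4 h2
    have h7 := mul_le_mul_of_nonneg_right h3 (show 0 ≤ 1 / x ^ 2 by positivity)
    have e : g l / (x * l) = g l / l * (1 / x) := by ring
    rw [e, inv_eq_one_div]
    linarith
  have hsq : ∑ k ∈ range (N - 1), 7 * ((((k + 2 : ℕ) : ℝ)) ^ 2)⁻¹ ≤ 24 := by
    rw [← mul_sum]
    have h : ∑ k ∈ range (N - 1), ((((k + 2 : ℕ) : ℝ)) ^ 2)⁻¹ ≤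
        ∑ i ∈ Ioo 1 (N + 2), ((i : ℝ) ^ 2)⁻¹ := by
      rw [← sum_image (f := fun i : ℕ => ((i : ℝ) ^ 2)⁻¹) (g := fun k : ℕ => k + 2)
        fun _ _ _ _ h => by simpa using h]
      refine sum_le_sum_of_subset_of_nonneg (fun i hi => ?_) fun i _ _ => by positivity
      obtain ⟨k, hk, rfl⟩ := mem_image.1 hi
      rw [mem_range] at hk
      rw [mem_Ioo]
      omega
    have := h.trans (sum_Ioo_inv_sq_le 1 (N + 2))
    norm_num at this ⊢
    linarith
  calc ∑ n ∈ Ico 2 (N + 1), g (Real.log n) / (n * Real.log n)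
      = ∑ k ∈ range (N - 1), g (a k) / (((k + 2 : ℕ) : ℝ) * a k) := by
        rw [sum_Ico_eq_sum_range, show N + 1 - 2 = N - 1 by omega, ha]
        exact sum_congr rfl fun k _ => by rw [add_comm 2 k]
    _ ≤ ∑ k ∈ range (N - 1), ((∫ t in (a k)..(a (k + 1)), g t / t) +
          7 * (((k + 2 : ℕ) : ℝ) ^ 2)⁻¹) := sum_le_sum fun k _ => hstep k
    _ ≤ ∑ k ∈ range N, (∫ t in (a k)..(a (k + 1)), g t / t) + 24 := by
        rw [sum_add_distrib]
        refine add_le_add (sum_le_sum_of_subset_of_nonneg (range_mono (Nat.sub_le N 1))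
          fun k _ _ => ?_) hsq
        refine intervalIntegral.integral_nonneg ?_ fun t ht =>
          div_nonneg (hg0 t) (by linarith [hapos k, ht.1])
        rw [ha]
        exact Real.log_le_log (by positivity) (by push_cast; linarith)
    _ = _ := by
        rw [intervalIntegral.sum_integral_adjacent_intervals fun k _ => hint k, ha]
        norm_num

/-- `|cos (θ t / 2)|`. -/
def absCos (θ t : ℝ) : ℝ := |Real.cos (θ * t / 2)|

theorem integral_abs_cos_period (s : ℝ) : ∫ u in s..(s + π), |Real.cos u| = 2 := by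
  have hp : Function.Periodic (fun u => |Real.cos u|) π := fun u => by
    simp [Real.cos_add_pi]
  rw [hp.intervalIntegral_add_eq s (-(π / 2)), show -(π / 2) + π = π / 2 by ring,
    intervalIntegral.integral_congr fun u hu => abs_of_nonneg (Real.cos_nonneg_of_mem_Icc ?_),
    integral_cos, Real.sin_neg, Real.sin_pi_div_two]
  · norm_num
  · rwa [Set.uIcc_of_le (by linarith [Real.pi_pos])] at hu

theorem integral_absCos_period {θ : ℝ} (hθ : 0 < θ) (s : ℝ) :
    ∫ t in s..(s + 2 * π / θ), absCos θ t = 4 / θ := by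
  unfold absCos
  rw [intervalIntegral.integral_congr (g := fun t => (fun u => |Real.cos u|) (θ / 2 * t))
    fun t _ => by simp only; ring_nf,
    intervalIntegral.integral_comp_mul_left (fun u => |Real.cos u|) (by positivity),
    show θ / 2 * (s + 2 * π / θ) = θ / 2 * s + π by field_simp, integral_abs_cos_period,
    smul_eq_mul]
  field_simp
  norm_num

theorem continuous_absCos (θ : ℝ) : Continuous (absCos θ) := by
  unfold absCos
  fun_prop

/-- **The integral.** -/
theorem integral_absCos_le {θ : ℝ} (hθ : 0 < θ) (hθ1 : θ ≤ 1) {L : ℝ} (hL : Real.log 2 ≤ L) :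
    ∫ t in (Real.log 2)..L, absCos θ t / t ≤
      2 / π * Real.log L + (1 - 2 / π) * Real.log (2 * π / θ) + 2 := by
  obtain ⟨T, hT⟩ : ∃ T : ℝ, T = 2 * π / θ := ⟨_, rfl⟩
  have hπ := Real.pi_gt_three
  have hT6 : 6 ≤ T := by
    rw [hT, le_div_iff₀ hθ]
    nlinarith
  have hl2 := Real.log_two_gt_d9
  have hl2' := Real.log_two_lt_d9
  have hL0 : 0 < L := by linarith
  rw [← hT]
  have hint : ∀ u v : ℝ, 0 < u → 0 < v →
      IntervalIntegrable (fun t => absCos θ t / t) volume u v := fun u v hu hv => by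
    refine ContinuousOn.intervalIntegrable ((continuous_absCos θ).continuousOn.div continuousOn_id
      fun t ht => ?_)
    rcases Set.mem_uIcc.1 ht with h | h <;> exact ne_of_gt (show (0 : ℝ) < t by linarith [h.1])
  have hfirst : ∀ v : ℝ, Real.log 2 ≤ v →
      ∫ t in (Real.log 2)..v, absCos θ t / t ≤ Real.log v + 1 := fun v hv => by
    refine (intervalIntegral.integral_mono_on hv (hint _ _ (by linarith) (by linarith))
      ((continuousOn_id.inv₀ fun t ht => ne_of_gt (show (0 : ℝ) < t by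
        rw [Set.uIcc_of_le hv] at ht; linarith [ht.1])).intervalIntegrable) fun t ht => ?_).trans ?_
    · rw [div_eq_mul_inv]
      exact mul_le_of_le_one_left (inv_nonneg.2 (by linarith [ht.1])) (Real.abs_cos_le_one _)
    · simp only [Pi.inv_apply, id_eq]
      rw [integral_inv_of_pos (by linarith) (by linarith), Real.log_div (by linarith) (by linarith)]
      have := Real.one_sub_inv_le_log_of_pos (show 0 < Real.log 2 by linarith)
      have : (Real.log 2)⁻¹ ≤ 2 := by
        rw [inv_le_comm₀ (by linarith) two_pos]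
        linarith
      linarith
  have hc : 0 ≤ 1 - 2 / π := by
    rw [sub_nonneg, div_le_one Real.pi_pos]
    linarith
  rcases lt_or_ge L T with hLT | hLT
  · refine (hfirst L hL).trans ?_
    have := mul_le_mul_of_nonneg_left (Real.log_le_log hL0 hLT.le) hc
    linarith
  obtain ⟨k, hk⟩ : ∃ k, k = ⌊L / T⌋₊ := ⟨_, rfl⟩
  have hk1 : 1 ≤ k := hk ▸ Nat.le_floor (by rw [Nat.cast_one, one_le_div (by linarith)]; exact hLT)
  obtain ⟨a, ha⟩ : ∃ a : ℕ → ℝ, a = fun i : ℕ => ((i + 1 : ℕ) : ℝ) * T := ⟨_, rfl⟩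
  have hapos : ∀ i, 0 < a i := fun i => by rw [ha]; positivity
  have hLk : L ≤ a k := by
    have := (Nat.lt_floor_add_one (L / T)).le
    rw [← hk, div_le_iff₀ (by linarith)] at this
    rw [ha]
    push_cast
    linarith
  have hnn : ∀ t, 0 < t → 0 ≤ absCos θ t / t := fun t ht => div_nonneg (abs_nonneg _) ht.le
  have h1 : ∫ t in (Real.log 2)..L, absCos θ t / t ≤
      (∫ t in (Real.log 2)..T, absCos θ t / t) +
        ∑ i ∈ range k, ∫ t in (a i)..(a (i + 1)), absCos θ t / t := by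
    rw [intervalIntegral.sum_integral_adjacent_intervals fun i _ => hint _ _ (hapos i) (hapos _),
      show a 0 = T by rw [ha]; simp,
      intervalIntegral.integral_add_adjacent_intervals (hint _ _ (by linarith) (by linarith))
        (hint _ _ (by linarith) (hapos k)),
      ← intervalIntegral.integral_add_adjacent_intervals (hint _ _ (by linarith) hL0)
        (hint _ _ hL0 (hapos k))]
    refine le_add_of_nonneg_right (intervalIntegral.integral_nonneg hLk fun t ht => hnn t ?_)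
    linarith [ht.1]
  have h2 : ∀ i ∈ range k, ∫ t in (a i)..(a (i + 1)), absCos θ t / t ≤
      2 / π * (((i : ℝ) + 1))⁻¹ := fun i _ => by
    have e : a (i + 1) = a i + 2 * π / θ := by rw [ha, ← hT]; push_cast; ring
    refine (intervalIntegral.integral_mono_on (by rw [e, ← hT]; linarith)
      (hint _ _ (hapos i) (hapos _))
      ((continuous_absCos θ).intervalIntegrable _ _ |>.div_const (a i)) fun t ht =>
        div_le_div_of_nonneg_left (abs_nonneg _) (hapos i) ht.1).trans (le_of_eq ?_)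
    rw [intervalIntegral.integral_div, e, integral_absCos_period hθ, ha, hT]
    have := Real.pi_pos
    push_cast
    field_simp
    ring
  have h3 : ∑ i ∈ range k, 2 / π * (((i : ℝ) + 1))⁻¹ ≤
      2 / π * (1 + (Real.log L - Real.log T)) := by
    rw [← mul_sum]
    refine mul_le_mul_of_nonneg_left ?_ (by positivity)
    have e : ∑ i ∈ range k, (((i : ℝ) + 1))⁻¹ = (harmonic k : ℝ) := by
      rw [harmonic]
      push_cast
      rfl
    rw [e, ← Real.log_div hL0.ne' (by linarith)]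
    refine (harmonic_le_one_add_log k).trans (add_le_add le_rfl ?_)
    exact Real.log_le_log (Nat.cast_pos.2 hk1) (hk ▸ Nat.floor_le (by positivity))
  refine h1.trans ((add_le_add (hfirst T (by linarith)) ((sum_le_sum h2).trans h3)).trans ?_)
  linarith

/-- **The sum over the primes.** -/
theorem exists_sum_absCos_le : ∃ C : ℝ, ∀ θ : ℝ, 0 < θ → θ ≤ 1 → ∀ N : ℕ, 2 ≤ N →
    ∑ p ∈ primesUpTo N, absCos θ (Real.log p) / p ≤
      2 / π * Real.log (Real.log N) + (1 - 2 / π) * -Real.log θ + C := by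
  obtain ⟨C, hC⟩ := exists_prime_sum_le
  refine ⟨C + 24 + (1 - 2 / π) * Real.log (2 * π) + 2 + 2, fun θ hθ hθ1 N hN => ?_⟩
  have hlip : ∀ s t, |absCos θ s - absCos θ t| ≤ |s - t| := fun s t => by
    refine (abs_abs_sub_abs_le_abs_sub _ _).trans ((Real.abs_cos_sub_cos_le _ _).trans ?_)
    rw [← sub_div, ← mul_sub, abs_div, abs_mul, abs_of_pos hθ, abs_two]
    nlinarith [abs_nonneg (s - t)]
  have h1 := hC (absCos θ) (fun _ => abs_nonneg _) (fun _ => Real.abs_cos_le_one _) hlip N hN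
  have h2 := sum_le_integral (g := absCos θ) (fun _ => abs_nonneg _)
    (fun _ => Real.abs_cos_le_one _) hlip
    (continuous_absCos θ) N
  have hN2 : (2 : ℝ) ≤ N := Nat.ofNat_le_cast.2 hN
  have hl2 := Real.log_two_gt_d9
  have hlN : Real.log 2 ≤ Real.log N := Real.log_le_log two_pos hN2
  have hlN' : Real.log ((N + 2 : ℕ) : ℝ) ≤ 2 * Real.log N := by
    rw [show 2 * Real.log N = Real.log ((N : ℝ) ^ 2) by rw [Real.log_pow]; norm_num]
    exact Real.log_le_log (by positivity) (by push_cast; nlinarith)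
  have hlN2 : Real.log N ≤ Real.log ((N + 2 : ℕ) : ℝ) :=
    Real.log_le_log (by linarith) (by push_cast; linarith)
  have h3 := integral_absCos_le hθ hθ1 (L := Real.log ((N + 2 : ℕ) : ℝ)) (by linarith)
  have h4 : Real.log (Real.log ((N + 2 : ℕ) : ℝ)) ≤ Real.log 2 + Real.log (Real.log N) := by
    rw [← Real.log_mul two_ne_zero (by linarith)]
    exact Real.log_le_log (by linarith) hlN'
  have hπ := Real.pi_gt_three
  have h5 : 2 / π ≤ 1 := by rw [div_le_one Real.pi_pos]; linarith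
  have h6 := mul_le_mul_of_nonneg_left h4 (show 0 ≤ 2 / π by positivity)
  have h7 := mul_le_mul_of_nonneg_right h5 (show 0 ≤ Real.log 2 by linarith)
  rw [Real.log_div (by positivity) hθ.ne'] at h3
  linarith [Real.log_two_lt_d9]

end FA.HooleyDelta
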