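import Mathlib.MeasureTheory.Integral.IntervalIntegral.FundThmCalculus
import Mathlib.Analysis.SpecialFunctions.Integrals.Basic
import Mathlib.NumberTheory.ArithmeticFunction.Zeta
import Mathlib.NumberTheory.ArithmeticFunction.Misc
import Mathlib.Analysis.SpecialFunctions.Trigonometric.Bounds

/-!
# The divisors in an interval of logarithms and the twisted divisor sums

By the Fejér kernel `∫_0^1 (1 - θ) cos (θ t) dθ = (1 - cos t) / t ^ 2` the divisors with logarithm
in an interval of length one number at most `3 ∫_0^1 ‖∑_{d ∣ n} d ^ (iθ)‖ dθ`.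
-/

set_option autoImplicit false

noncomputable section

namespace FA.HooleyDelta

open Finset MeasureTheory
open scoped ArithmeticFunction.zeta

/-- `d ^ (iθ)`. -/
def twistTerm (θ : ℝ) (d : ℕ) : ℂ := Complex.exp (((θ * Real.log d : ℝ) : ℂ) * Complex.I)

theorem norm_twistTerm (θ : ℝ) (d : ℕ) : ‖twistTerm θ d‖ = 1 := Complex.norm_exp_ofReal_mul_I _

theorem twistTerm_mul (θ : ℝ) {a b : ℕ} (ha : a ≠ 0) (hb : b ≠ 0) :
    twistTerm θ (a * b) = twistTerm θ a * twistTerm θ b := by
  rw [twistTerm, twistTerm, twistTerm, ← Complex.exp_add, Nat.cast_mul,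
    Real.log_mul (Nat.cast_ne_zero.2 ha) (Nat.cast_ne_zero.2 hb)]
  push_cast
  ring_nf

/-- `|∑_{d ∣ n} d ^ (iθ)|`. -/
def twist (θ : ℝ) (n : ℕ) : ℝ := ‖∑ d ∈ n.divisors, twistTerm θ d‖

theorem twist_nonneg (θ : ℝ) (n : ℕ) : 0 ≤ twist θ n := norm_nonneg _

theorem twist_one (θ : ℝ) : twist θ 1 = 1 := by simp [twist, norm_twistTerm]

theorem twist_le_card (θ : ℝ) (n : ℕ) : twist θ n ≤ #n.divisors :=
  (norm_sum_le _ _).trans (le_of_eq (by simp [norm_twistTerm]))

/-- The twist as an arithmetic function. -/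
def twistFun (θ : ℝ) : ArithmeticFunction ℂ :=
  ⟨fun d => if d = 0 then 0 else twistTerm θ d, if_pos rfl⟩

theorem twistFun_apply (θ : ℝ) {d : ℕ} (hd : d ≠ 0) : twistFun θ d = twistTerm θ d := if_neg hd

theorem isMultiplicative_twistFun (θ : ℝ) : (twistFun θ).IsMultiplicative :=
  ArithmeticFunction.IsMultiplicative.iff_ne_zero.2
    ⟨by simp [twistFun_apply θ one_ne_zero, twistTerm],
      fun {m n} hm hn _ => by
        rw [twistFun_apply θ (mul_ne_zero hm hn), twistFun_apply θ hm, twistFun_apply θ hn,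
          twistTerm_mul θ hm hn]⟩

theorem twist_mul (θ : ℝ) {m n : ℕ} (h : m.Coprime n) :
    twist θ (m * n) = twist θ m * twist θ n := by
  have e : ∀ k : ℕ, ∑ d ∈ k.divisors, twistTerm θ d =
      ((ζ : ArithmeticFunction ℂ) * twistFun θ) k := fun k => by
    rw [ArithmeticFunction.coe_zeta_mul_apply]
    exact sum_congr rfl fun d hd =>
      (twistFun_apply θ (Nat.pos_of_mem_divisors hd).ne').symm
  rw [twist, twist, twist, e, e, e, (ArithmeticFunction.isMultiplicative_zeta.natCast.mul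
    (isMultiplicative_twistFun θ)).map_mul_of_coprime h, norm_mul]

theorem twist_prime (θ : ℝ) {p : ℕ} (hp : p.Prime) :
    twist θ p = 2 * |Real.cos (θ * Real.log p / 2)| := by
  obtain ⟨t, ht⟩ : ∃ t : ℝ, t = θ * Real.log p / 2 := ⟨_, rfl⟩
  have e1 : twistTerm θ 1 = 1 := by simp [twistTerm]
  have e2 : (1 : ℂ) + twistTerm θ p =
      Complex.exp ((t : ℂ) * Complex.I) * (2 * Real.cos t : ℝ) := by
    rw [twistTerm, show θ * Real.log p = t + t by rw [ht]; ring]
    push_cast
    rw [Complex.two_cos, mul_add, ← Complex.exp_add, ← Complex.exp_add, neg_mul, add_neg_cancel,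
      Complex.exp_zero, add_mul, add_comm]
  rw [twist, hp.divisors, sum_pair hp.ne_one.symm, e1, e2, norm_mul, Complex.norm_exp_ofReal_mul_I,
    one_mul, Complex.norm_real, Real.norm_eq_abs, abs_mul, abs_two, ht]

theorem continuous_twist (n : ℕ) : Continuous fun θ : ℝ => twist θ n := by
  unfold twist twistTerm
  fun_prop

/-- **Fejér's kernel.** -/
theorem fejer_nonneg (t : ℝ) : 0 ≤ ∫ θ in (0 : ℝ)..1, (1 - θ) * Real.cos (θ * t) := by
  rcases eq_or_ne t 0 with rfl | ht
  · refine intervalIntegral.integral_nonneg zero_le_one fun θ hθ => ?_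
    simp only [mul_zero, Real.cos_zero, mul_one]
    linarith [hθ.2]
  have hderiv : ∀ θ ∈ Set.uIcc (0 : ℝ) 1, HasDerivAt
      (fun θ : ℝ => (1 - θ) * Real.sin (θ * t) / t - Real.cos (θ * t) / t ^ 2)
      ((1 - θ) * Real.cos (θ * t)) θ := by
    intro θ _
    have hl : HasDerivAt (fun θ : ℝ => θ * t) t θ := hasDerivAt_mul_const t
    refine ((((hasDerivAt_id θ).const_sub 1).mul hl.sin).div_const t |>.sub
      (hl.cos.div_const (t ^ 2))).congr_deriv ?_
    simp only [id]
    field_simp
    ring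
  rw [intervalIntegral.integral_eq_sub_of_hasDerivAt hderiv
    ((by fun_prop : Continuous fun θ : ℝ => (1 - θ) * Real.cos (θ * t)).intervalIntegrable _ _)]
  simp only [sub_self, zero_mul, one_mul, sub_zero, zero_div, zero_sub, Real.sin_zero, mul_zero,
    Real.cos_zero]
  have : Real.cos t / t ^ 2 ≤ 1 / t ^ 2 :=
    div_le_div_of_nonneg_right (Real.cos_le_one t) (by positivity)
  linarith

theorem fejer_ge {t : ℝ} (ht : |t| ≤ 1 / 2) :
    7 / 16 ≤ ∫ θ in (0 : ℝ)..1, (1 - θ) * Real.cos (θ * t) := by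
  have h : ∫ θ in (0 : ℝ)..1, (1 - θ) * (7 / 8 : ℝ) = 7 / 16 := by
    rw [intervalIntegral.integral_mul_const, intervalIntegral.integral_sub
      intervalIntegrable_const intervalIntegral.intervalIntegrable_id,
      intervalIntegral.integral_const, integral_id]
    norm_num
  rw [← h]
  refine intervalIntegral.integral_mono_on zero_le_one
    ((by fun_prop : Continuous fun θ : ℝ => (1 - θ) * (7 / 8 : ℝ)).intervalIntegrable _ _)
    ((by fun_prop : Continuous fun θ : ℝ => (1 - θ) * Real.cos (θ * t)).intervalIntegrable _ _)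
    fun θ hθ => mul_le_mul_of_nonneg_left ?_ (by linarith [hθ.2])
  refine le_trans ?_ Real.one_sub_sq_div_two_le_cos
  have h1 : |θ * t| ≤ 1 / 2 := by
    rw [abs_mul, abs_of_nonneg hθ.1]
    exact (mul_le_of_le_one_left (abs_nonneg t) hθ.2).trans ht
  have := pow_le_pow_left₀ (abs_nonneg _) h1 2
  rw [sq_abs] at this
  linarith

/-- **The divisors with logarithm in an interval of length one.** -/
theorem card_log_interval_le (n : ℕ) (u : ℝ) :
    (#(n.divisors.filter fun d : ℕ => u < Real.log d ∧ Real.log d ≤ u + 1) : ℝ) ≤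
      3 * ∫ θ in (0 : ℝ)..1, twist θ n := by
  obtain ⟨c, hc⟩ : ∃ c : ℝ, c = u + 1 / 2 := ⟨_, rfl⟩
  have hi : ∀ d : ℕ, Continuous fun θ : ℝ => (1 - θ) * Real.cos (θ * (Real.log d - c)) :=
    fun d => by fun_prop
  have h1 : 7 / 16 * (#(n.divisors.filter fun d : ℕ => u < Real.log d ∧ Real.log d ≤ u + 1) : ℝ) ≤
      ∑ d ∈ n.divisors, ∫ θ in (0 : ℝ)..1, (1 - θ) * Real.cos (θ * (Real.log d - c)) := by
    refine le_trans ?_ (sum_le_sum_of_subset_of_nonneg
      (s := n.divisors.filter fun d : ℕ => u < Real.log d ∧ Real.log d ≤ u + 1)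
      (filter_subset _ _) fun d _ _ => fejer_nonneg _)
    rw [mul_comm, ← nsmul_eq_mul]
    refine card_nsmul_le_sum _ _ _ fun d hd => fejer_ge ?_
    obtain ⟨-, h1, h2⟩ := mem_filter.1 hd
    rw [hc, abs_le]
    constructor <;> linarith
  have h2 : ∑ d ∈ n.divisors, ∫ θ in (0 : ℝ)..1, (1 - θ) * Real.cos (θ * (Real.log d - c)) ≤
      ∫ θ in (0 : ℝ)..1, twist θ n := by
    rw [← intervalIntegral.integral_finsetSum fun d _ => (hi d).intervalIntegrable _ _]
    refine intervalIntegral.integral_mono_on zero_le_one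
      ((continuous_finsetSum _ fun d _ => hi d).intervalIntegrable _ _)
      ((continuous_twist n).intervalIntegrable _ _) fun θ hθ => ?_
    rw [← mul_sum]
    refine le_trans (mul_le_mul_of_nonneg_left (le_abs_self _) (by linarith [hθ.2]))
      ((mul_le_of_le_one_left (abs_nonneg _) (by linarith [hθ.1])).trans ?_)
    have e : ∑ d ∈ n.divisors, Real.cos (θ * (Real.log d - c)) =
        (Complex.exp (((-(θ * c) : ℝ) : ℂ) * Complex.I) *
          ∑ d ∈ n.divisors, twistTerm θ d).re := by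
      rw [mul_sum, Complex.re_sum]
      refine sum_congr rfl fun d _ => ?_
      rw [twistTerm, ← Complex.exp_add, ← add_mul, ← Complex.ofReal_add,
        Complex.exp_ofReal_mul_I_re]
      congr 1
      ring
    rw [e]
    refine (Complex.abs_re_le_norm _).trans (le_of_eq ?_)
    rw [norm_mul, Complex.norm_exp_ofReal_mul_I, one_mul, twist]
  have h3 : 0 ≤ ∫ θ in (0 : ℝ)..1, twist θ n :=
    intervalIntegral.integral_nonneg zero_le_one fun θ _ => twist_nonneg θ n
  linarith

end FA.HooleyDelta
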