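import Fermat.Agent.HooleyDelta.Fejer
import Fermat.Agent.HooleyDelta.Mean
import Fermat.Agent.HooleyDelta.Cosine
import Mathlib.Analysis.SpecialFunctions.Integrability.Basic

/-!
# Hooley's theorem on `Δ`

`∑_{n ≤ N} ‖∑_{d ∣ n} d ^ (iθ)‖ ≪ N (log N) ^ (4/π - 1) θ ^ -(2 - 4/π)` for `0 < θ ≤ 1`, and the
exponent of `θ` is below one, so Fejér's bound gives `∑_{n ≤ N} Δ n ≪ N (log N) ^ (4/π - 1)`.
-/

set_option autoImplicit false

noncomputable section

namespace FA.HooleyDelta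

open Finset MeasureTheory
open FA.ErdosKac (primesUpTo mem_primesUpTo)
open scoped Real

/-- The greatest number of divisors with logarithm in an interval of length one. -/
def delta (n : ℕ) : ℝ :=
  ⨆ u : ℝ, (#(n.divisors.filter fun d : ℕ => u < Real.log d ∧ Real.log d ≤ u + 1) : ℝ)

theorem bddAbove_delta (n : ℕ) : BddAbove (Set.range fun u : ℝ =>
    (#(n.divisors.filter fun d : ℕ => u < Real.log d ∧ Real.log d ≤ u + 1) : ℝ)) :=
  ⟨#n.divisors, by rintro _ ⟨u, rfl⟩; exact Nat.cast_le.2 (card_filter_le _ _)⟩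

theorem delta_le (n : ℕ) : delta n ≤ 3 * ∫ θ in (0 : ℝ)..1, twist θ n :=
  ciSup_le fun u => card_log_interval_le n u

theorem exists_sum_twist_le : ∃ C : ℝ, 0 ≤ C ∧ ∀ θ : ℝ, 0 < θ → θ ≤ 1 → ∀ N : ℕ, 2 ≤ N →
    ∑ n ∈ Icc 1 N, twist θ n ≤
      C * N * Real.log N ^ (4 / π - 1) * θ ^ (-(2 - 4 / π)) := by
  obtain ⟨C, hC0, hC⟩ := exists_sum_le
  obtain ⟨C', hC'⟩ := exists_sum_absCos_le
  refine ⟨C * Real.exp (2 * C'), by positivity, fun θ hθ hθ1 N hN => ?_⟩
  have hlN : 0 < Real.log N := Real.log_pos (Nat.one_lt_cast.2 (by omega))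
  refine (hC (twist θ) (twist_nonneg θ) (twist_one θ) (fun m n h => twist_mul θ h)
    (twist_le_card θ) N hN).trans ?_
  have h : ∑ p ∈ primesUpTo N, twist θ p / p ≤
      4 / π * Real.log (Real.log N) + (2 - 4 / π) * -Real.log θ + 2 * C' := by
    have e : ∑ p ∈ primesUpTo N, twist θ p / p =
        2 * ∑ p ∈ primesUpTo N, absCos θ (Real.log p) / p := by
      rw [mul_sum]
      exact sum_congr rfl fun p hp => by
        rw [twist_prime θ (mem_primesUpTo.1 hp).1, absCos, mul_div_assoc]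
    have := hC' θ hθ hθ1 N hN
    rw [e, show 4 / π = 2 * (2 / π) by ring]
    linarith
  refine (mul_le_mul_of_nonneg_left (Real.exp_le_exp.2 h) (by positivity)).trans (le_of_eq ?_)
  rw [Real.exp_add, Real.exp_add, Real.rpow_sub hlN, Real.rpow_one,
    show 4 / π * Real.log (Real.log N) = Real.log (Real.log N) * (4 / π) by ring,
    ← Real.rpow_def_of_pos hlN,
    show (2 - 4 / π) * -Real.log θ = Real.log θ * (-(2 - 4 / π)) by ring,
    ← Real.rpow_def_of_pos hθ]
  ring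

/-- **Hooley's theorem.** -/
theorem exists_sum_delta_le : ∃ C : ℝ, ∀ N : ℕ, 2 ≤ N →
    ∑ n ∈ Icc 1 N, delta n ≤ C * N * Real.log N ^ (4 / π - 1) := by
  obtain ⟨C, hC0, hC⟩ := exists_sum_twist_le
  obtain ⟨a, ha⟩ : ∃ a : ℝ, a = 2 - 4 / π := ⟨_, rfl⟩
  have ha1 : a < 1 := by
    have : 1 < 4 / π := by
      rw [one_lt_div Real.pi_pos]
      exact Real.pi_lt_four
    linarith
  refine ⟨3 * (C / (1 - a)), fun N hN => ?_⟩
  obtain ⟨B, hB⟩ : ∃ B : ℝ, B = C * N * Real.log N ^ (4 / π - 1) := ⟨_, rfl⟩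
  have hint : ∫ θ in (0 : ℝ)..1, θ ^ (-a) = 1 / (1 - a) := by
    rw [integral_rpow (Or.inl (by linarith)), Real.one_rpow, Real.zero_rpow (by linarith),
      sub_zero, show -a + 1 = 1 - a by ring]
  have h1 : ∑ n ∈ Icc 1 N, ∫ θ in (0 : ℝ)..1, twist θ n ≤ B * (1 / (1 - a)) := by
    rw [← intervalIntegral.integral_finsetSum fun n _ =>
      (continuous_twist n).intervalIntegrable _ _, ← hint, ← intervalIntegral.integral_const_mul]
    refine intervalIntegral.integral_mono_on_of_le_Ioo zero_le_one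
      ((continuous_finsetSum _ fun n _ => continuous_twist n).intervalIntegrable _ _)
      ((intervalIntegral.intervalIntegrable_rpow' (by linarith)).const_mul _) fun θ hθ => ?_
    rw [hB, ha]
    exact hC θ hθ.1 hθ.2.le N hN
  refine (sum_le_sum fun n _ => delta_le n).trans ?_
  rw [← mul_sum]
  refine (mul_le_mul_of_nonneg_left h1 (by norm_num)).trans_eq ?_
  rw [hB]
  ring

end FA.HooleyDelta
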